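/-
S55 / 41-PT-ASSEMBLY (helper84), file 1: the pure linear-algebra core of the Poitou–Tate assembly.

Setting (all `k`-vector spaces, `k` a field; think `k = 𝔽_p`):

* `P0` : the (finite-dimensional) sum of the local `H⁰` terms `⊕_{v ∈ S} H⁰(ℚ_v, A')`;
* `X`  : `H⁰(G_S, Hom(A, C_S)) = Hom_{G_S}(A, C_S)`;
* `H1` : `H¹(G_S, A')`, `H2` : `H²(G_S, A)`;
* `j : P0 → X`, `δ : X → H1` : two consecutive maps of the long exact sequence of
  `0 → Hom(A, E_S) → Hom(A, J_S) → Hom(A, C_S) → 0`, exact at `X` (`ker δ = range j`); the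
  image of `δ` is `Ш¹(A')`;
* `α : X → H2^*` : the global duality map (degree `(0,2)`), surjective with `ker α ≤ range j`;
* the left kernel of the pairing `P0 × H2 → k`, `(x, h) ↦ α (j x) h` is `Ш²(A)` (local duality
  in degree `(0,2)` + compatibility of the local and global pairings).

Conclusion: `range δ ≃ Dual (Ш²)`, hence `Ш²` is finite-dimensional as soon as `Ш¹` is, with the
same dimension.  Nothing here is specific to Galois cohomology.
-/
import Mathlib

set_option autoImplicit false

open Module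

namespace Fermat.Agent.S55.PTAssembly84.Core

variable {k : Type*} [Field k]
variable {X P0 H1 H2 : Type*}
variable [AddCommGroup X] [Module k X] [AddCommGroup P0] [Module k P0]
variable [AddCommGroup H1] [Module k H1] [AddCommGroup H2] [Module k H2]

/-- The left kernel (in `H2`) of the pairing `P0 × H2 → k`, `(x, h) ↦ α (j x) h`. -/
def pairKer (j : P0 →ₗ[k] X) (α : X →ₗ[k] Dual k H2) : Submodule k H2 :=
  (LinearMap.range (α ∘ₗ j)).dualCoannihilator

theorem mem_pairKer (j : P0 →ₗ[k] X) (α : X →ₗ[k] Dual k H2) (h : H2) :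
    h ∈ pairKer j α ↔ ∀ x : P0, α (j x) h = 0 := by
  rw [pairKer, Submodule.mem_dualCoannihilator]
  constructor
  · intro H x
    exact H _ ⟨x, rfl⟩
  · rintro H _ ⟨x, rfl⟩
    exact H x

/-- The map `X → Dual (pairKer)`, `x ↦ (α x)|_{pairKer}`. -/
noncomputable def toDualPairKer (j : P0 →ₗ[k] X) (α : X →ₗ[k] Dual k H2) :
    X →ₗ[k] Dual k (pairKer j α) :=
  (pairKer j α).dualRestrict ∘ₗ α

theorem toDualPairKer_apply (j : P0 →ₗ[k] X) (α : X →ₗ[k] Dual k H2) (x : X)
    (h : pairKer j α) : toDualPairKer j α x h = α x (h : H2) := rfl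

theorem toDualPairKer_surjective (j : P0 →ₗ[k] X) (α : X →ₗ[k] Dual k H2)
    (hα : Function.Surjective α) : Function.Surjective (toDualPairKer j α) :=
  (Subspace.dualRestrict_surjective (W := pairKer j α)).comp hα

theorem ker_toDualPairKer [FiniteDimensional k P0] (j : P0 →ₗ[k] X) (α : X →ₗ[k] Dual k H2)
    (hkα : LinearMap.ker α ≤ LinearMap.range j) :
    LinearMap.ker (toDualPairKer j α) = LinearMap.range j := by
  classical
  have : FiniteDimensional k (LinearMap.range (α ∘ₗ j)) :=
    Module.Finite.range (α ∘ₗ j)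
  apply le_antisymm
  · intro x hx
    rw [LinearMap.mem_ker] at hx
    -- `α x` kills `pairKer`, hence lies in the (finite-dimensional) range of `α ∘ j`
    have h1 : α x ∈ (pairKer j α).dualAnnihilator := by
      rw [Submodule.mem_dualAnnihilator]
      intro w hw
      have := LinearMap.congr_fun hx ⟨w, hw⟩
      simpa [toDualPairKer_apply] using this
    rw [pairKer, Subspace.dualCoannihilator_dualAnnihilator_eq] at h1
    obtain ⟨y, hy⟩ := h1
    have h2 : x - j y ∈ LinearMap.ker α := by
      rw [LinearMap.mem_ker, map_sub, ← hy, LinearMap.comp_apply, sub_self]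
    obtain ⟨z, hz⟩ := hkα h2
    refine ⟨z + y, ?_⟩
    rw [map_add, hz, sub_add_cancel]
  · rintro _ ⟨y, rfl⟩
    rw [LinearMap.mem_ker]
    ext ⟨h, hh⟩
    rw [toDualPairKer_apply]
    exact (mem_pairKer j α h).1 hh y

/-- **Core of the Poitou–Tate assembly**: the image of `δ` is the dual of the left kernel of the
pairing `(x, h) ↦ α (j x) h`. -/
theorem nonempty_range_equiv_dual_pairKer [FiniteDimensional k P0]
    (j : P0 →ₗ[k] X) (δ : X →ₗ[k] H1) (α : X →ₗ[k] Dual k H2)
    (hex : LinearMap.ker δ = LinearMap.range j)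
    (hα : Function.Surjective α) (hkα : LinearMap.ker α ≤ LinearMap.range j) :
    Nonempty (LinearMap.range δ ≃ₗ[k] Dual k (pairKer j α)) := by
  have e1 : (X ⧸ LinearMap.ker δ) ≃ₗ[k] LinearMap.range δ := δ.quotKerEquivRange
  have hk : LinearMap.ker δ = LinearMap.ker (toDualPairKer j α) := by
    rw [hex, ker_toDualPairKer j α hkα]
  have e2 : (X ⧸ LinearMap.ker (toDualPairKer j α)) ≃ₗ[k] Dual k (pairKer j α) :=
    (toDualPairKer j α).quotKerEquivOfSurjective (toDualPairKer_surjective j α hα)
  exact ⟨e1.symm.trans ((Submodule.quotEquivOfEq _ _ hk).trans e2)⟩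

/-- Finiteness and dimension form of the core. -/
theorem finrank_range_eq_finrank_pairKer [FiniteDimensional k P0]
    (j : P0 →ₗ[k] X) (δ : X →ₗ[k] H1) (α : X →ₗ[k] Dual k H2)
    (hex : LinearMap.ker δ = LinearMap.range j)
    (hα : Function.Surjective α) (hkα : LinearMap.ker α ≤ LinearMap.range j)
    [FiniteDimensional k (LinearMap.range δ)] :
    FiniteDimensional k (pairKer j α) ∧
      finrank k (LinearMap.range δ) = finrank k (pairKer j α) := by
  obtain ⟨e⟩ := nonempty_range_equiv_dual_pairKer j δ α hex hα hkα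
  have : FiniteDimensional k (Dual k (pairKer j α)) := LinearEquiv.finiteDimensional e
  have hfin : FiniteDimensional k (pairKer j α) := (Module.finite_dual_iff k).1 inferInstance
  exact ⟨hfin, by rw [e.finrank_eq, Subspace.dual_finrank_eq]⟩

/-- Variant with named submodules `Sha1 ≤ H1`, `Sha2 ≤ H2`. -/
theorem finrank_eq_of_assembly [FiniteDimensional k P0]
    (j : P0 →ₗ[k] X) (δ : X →ₗ[k] H1) (α : X →ₗ[k] Dual k H2)
    (Sha1 : Submodule k H1) (Sha2 : Submodule k H2)
    (hex : LinearMap.ker δ = LinearMap.range j)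
    (hrange : LinearMap.range δ = Sha1)
    (hα : Function.Surjective α) (hkα : LinearMap.ker α ≤ LinearMap.range j)
    (hpair : ∀ h : H2, h ∈ Sha2 ↔ ∀ x : P0, α (j x) h = 0)
    [FiniteDimensional k Sha1] :
    FiniteDimensional k Sha2 ∧ finrank k Sha1 = finrank k Sha2 := by
  subst hrange
  have hS : Sha2 = pairKer j α := by
    ext h
    rw [hpair, mem_pairKer]
  subst hS
  exact finrank_range_eq_finrank_pairKer j δ α hex hα hkα

end Fermat.Agent.S55.PTAssembly84.Core
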