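/-
S55 / 41-PT-ASSEMBLY (helper84), file 2: the assembly in the frozen Prelude shapes.

`s55_of_assembly` : the frozen S55 conclusion from
  * finite-dimensionality of `sha₁ S (M.dualTwist (cycloChar p))`            (leaf 42-FIN),
  * a `k`-space `X` (`= Hom_{G_S}(M, C_S)`), a finite-dimensional `P0` (the local `H⁰` terms) and
    maps `j : P0 → X`, `δ : X → H1 (M.dualTwist (cycloChar p))` with `ker δ = range j`,
    `range δ = sha₁ S (M.dualTwist (cycloChar p))`                             (leaves 38, 39),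
  * `α : X → Dual (continuousH2S S M)` surjective with `ker α ≤ range j`       (leaf 40),
  * the left kernel of `(x, h) ↦ α (j x) h` is `sha₂ S M`                      (leaf 24 + compat).

`s55_of_assembly_local` : same, with the last item replaced by local pairings
`B q : P0 q × continuousH2 (primeLocalToGlobal q) (res M) → 𝔽_p`, non-degenerate on the right, and
the compatibility `α (j x) h = ∑_{q ∈ S} B q (x q) (loc_q h)` (no archimedean term: `p` is odd).
-/
import Mathlib
import Fermat.Statements.S55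
import Fermat.Agent.S55.Spine15
import Fermat.Agent.S55.ProfinLocal31.Sha
import Fermat.Agent.S55.PTAssembly84.Core

set_option autoImplicit false

open CategoryTheory Module groupCohomology ExtCitation

noncomputable section

namespace Fermat.Agent.S55.PTAssembly84.Plug

variable {p : ℕ} [Fact p.Prime] (S : Finset Nat.Primes)
variable (M : Rep (ZMod p) (AlgebraicClosure ℚ ≃ₐ[ℚ] AlgebraicClosure ℚ))

/-- Dimension form of the assembly, in the Prelude shapes. -/
theorem dim_of_assembly
    {X P0 : Type*} [AddCommGroup X] [Module (ZMod p) X]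
    [AddCommGroup P0] [Module (ZMod p) P0] [FiniteDimensional (ZMod p) P0]
    (j : P0 →ₗ[ZMod p] X) (δ : X →ₗ[ZMod p] H1 (M.dualTwist (cycloChar p)))
    (α : X →ₗ[ZMod p] Dual (ZMod p) (continuousH2S S M))
    (hex : LinearMap.ker δ = LinearMap.range j)
    (hrange : LinearMap.range δ = sha₁ S (M.dualTwist (cycloChar p)))
    (hα : Function.Surjective α) (hkα : LinearMap.ker α ≤ LinearMap.range j)
    (hpair : ∀ h : continuousH2S S M, h ∈ sha₂ S M ↔ ∀ x : P0, α (j x) h = 0)
    [FiniteDimensional (ZMod p) (sha₁ S (M.dualTwist (cycloChar p)))] :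
    FiniteDimensional (ZMod p) (sha₂ S M) ∧
      finrank (ZMod p) (sha₁ S (M.dualTwist (cycloChar p))) = finrank (ZMod p) (sha₂ S M) :=
  Core.finrank_eq_of_assembly j δ α _ _ hex hrange hα hkα hpair

/-- **Assembly of S55** (abstract pairing form). -/
theorem s55_of_assembly
    {X P0 : Type*} [AddCommGroup X] [Module (ZMod p) X]
    [AddCommGroup P0] [Module (ZMod p) P0] [FiniteDimensional (ZMod p) P0]
    (j : P0 →ₗ[ZMod p] X) (δ : X →ₗ[ZMod p] H1 (M.dualTwist (cycloChar p)))
    (α : X →ₗ[ZMod p] Dual (ZMod p) (continuousH2S S M))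
    (hex : LinearMap.ker δ = LinearMap.range j)
    (hrange : LinearMap.range δ = sha₁ S (M.dualTwist (cycloChar p)))
    (hα : Function.Surjective α) (hkα : LinearMap.ker α ≤ LinearMap.range j)
    (hpair : ∀ h : continuousH2S S M, h ∈ sha₂ S M ↔ ∀ x : P0, α (j x) h = 0)
    (hfin : FiniteDimensional (ZMod p) (sha₁ S (M.dualTwist (cycloChar p)))) :
    ∃ B : sha₁ S (M.dualTwist (cycloChar p)) →ₗ[ZMod p] sha₂ S M →ₗ[ZMod p] ZMod p,
      (∀ y, (∀ x, B y x = 0) → y = 0) ∧ (∀ x, (∀ y, B y x = 0) → x = 0) := by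
  obtain ⟨h2, hd⟩ := dim_of_assembly S M j δ α hex hrange hα hkα hpair
  exact Spine15.s55_of_finrank_eq S M hfin h2 hd

/-- The left-kernel hypothesis from local pairings: if `P0 = ∏_{q ∈ S} P0 q`, the pairings
`B q : P0 q × H²(ℚ_q, M) → 𝔽_p` are non-degenerate on the right and
`α (j x) h = ∑_q B q (x q) (loc_q h)`, then the left kernel of `(x, h) ↦ α (j x) h` is `sha₂ S M`
(`p` odd, so that the archimedean condition is empty). -/
theorem pair_of_local (hp2 : p ≠ 2)
    {X : Type*} [AddCommGroup X] [Module (ZMod p) X]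
    {P0 : ↥S → Type*} [∀ q, AddCommGroup (P0 q)] [∀ q, Module (ZMod p) (P0 q)]
    (j : (∀ q, P0 q) →ₗ[ZMod p] X)
    (α : X →ₗ[ZMod p] Dual (ZMod p) (continuousH2S S M))
    (B : ∀ q : ↥S, P0 q →ₗ[ZMod p]
      continuousH2 (primeLocalToGlobal q.1) (Rep.res (primeLocalToGlobal q.1) M) →ₗ[ZMod p] ZMod p)
    (hB : ∀ (q : ↥S) (y : continuousH2 (primeLocalToGlobal q.1)
      (Rep.res (primeLocalToGlobal q.1) M)), (∀ x, B q x y = 0) → y = 0)
    (hcompat : ∀ (x : ∀ q, P0 q) (h : continuousH2S S M),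
      α (j x) h = ∑ q : ↥S, B q (x q) (locRes₂S S M (primeLocalToGlobal q.1) h))
    (h : continuousH2S S M) :
    h ∈ sha₂ S M ↔ ∀ x : (∀ q, P0 q), α (j x) h = 0 := by
  classical
  rw [ProfinLocal31.Sha.mem_sha₂_iff S hp2 M h]
  constructor
  · intro hloc x
    rw [hcompat]
    exact Finset.sum_eq_zero fun q _ => by rw [hloc q, map_zero]
  · intro hx q
    apply hB q
    intro x0
    have := hx (Pi.single q x0)
    rw [hcompat, Finset.sum_eq_single q] at this
    · simpa using this
    · intro q' _ hq'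
      rw [Pi.single_eq_of_ne hq', map_zero, LinearMap.zero_apply]
    · intro hq
      exact absurd (Finset.mem_univ q) hq

/-- **Assembly of S55** (local pairing form). -/
theorem s55_of_assembly_local (hp2 : p ≠ 2)
    {X : Type*} [AddCommGroup X] [Module (ZMod p) X]
    {P0 : ↥S → Type*} [∀ q, AddCommGroup (P0 q)] [∀ q, Module (ZMod p) (P0 q)]
    [∀ q, FiniteDimensional (ZMod p) (P0 q)]
    (j : (∀ q, P0 q) →ₗ[ZMod p] X) (δ : X →ₗ[ZMod p] H1 (M.dualTwist (cycloChar p)))
    (α : X →ₗ[ZMod p] Dual (ZMod p) (continuousH2S S M))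
    (hex : LinearMap.ker δ = LinearMap.range j)
    (hrange : LinearMap.range δ = sha₁ S (M.dualTwist (cycloChar p)))
    (hα : Function.Surjective α) (hkα : LinearMap.ker α ≤ LinearMap.range j)
    (B : ∀ q : ↥S, P0 q →ₗ[ZMod p]
      continuousH2 (primeLocalToGlobal q.1) (Rep.res (primeLocalToGlobal q.1) M) →ₗ[ZMod p] ZMod p)
    (hB : ∀ (q : ↥S) (y : continuousH2 (primeLocalToGlobal q.1)
      (Rep.res (primeLocalToGlobal q.1) M)), (∀ x, B q x y = 0) → y = 0)
    (hcompat : ∀ (x : ∀ q, P0 q) (h : continuousH2S S M),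
      α (j x) h = ∑ q : ↥S, B q (x q) (locRes₂S S M (primeLocalToGlobal q.1) h))
    (hfin : FiniteDimensional (ZMod p) (sha₁ S (M.dualTwist (cycloChar p)))) :
    ∃ B : sha₁ S (M.dualTwist (cycloChar p)) →ₗ[ZMod p] sha₂ S M →ₗ[ZMod p] ZMod p,
      (∀ y, (∀ x, B y x = 0) → y = 0) ∧ (∀ x, (∀ y, B y x = 0) → x = 0) :=
  s55_of_assembly S M j δ α hex hrange hα hkα
    (pair_of_local S M hp2 j α B hB hcompat) hfin

end Fermat.Agent.S55.PTAssembly84.Plug
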