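/-
S55 / 41-PT-ASSEMBLY (helper84), file 3: the assembly for the CONE / degree-(1,1) route (R1) and the
dualizing-module route (R3), in the frozen Prelude shapes.

* `Core'` : the linear-algebra core of `Core.lean` with `FiniteDimensional k P0` weakened to
  finite-dimensionality of the range of `α ∘ j` (automatic when `H2` is finite-dimensional).
* `s55_of_cone` (R1): `H2c` any space (compactly supported `H²`), `δc : P1 → H2c`,
  `jc : H2c → continuousH2S S M` with `ker jc = range δc`, `range jc = sha₂ S M`;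
  `GD : H2c → Dual (continuousH1S S M')` surjective with `ker GD ≤ range δc` (e.g. bijective);
  the right kernel of `(x, y) ↦ GD (δc x) y` is `sha₁ S M'`; `continuousH1S S M'` finite-dimensional.
* `s55_of_cone_local` (R1): the last-but-one item from local pairings `LD q` on `H¹` (only
  non-degeneracy in the second variable) and the adjunction formula `GD (δc x) y = ∑_q LD q (x q) (loc_q y)`.
* `s55_of_dualizing` (R3): `Plug.s55_of_assembly_local` with `X = Dual (continuousH2S S M)`, `α = id`.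
-/
import Mathlib
import Fermat.Statements.S55
import Fermat.Agent.S55.Spine15
import Fermat.Agent.S55.ProfinLocal31.Sha
import Fermat.Agent.S55.PTAssembly84.Core
import Fermat.Agent.S55.PTAssembly84.Plug

set_option autoImplicit false

open CategoryTheory Module groupCohomology ExtCitation

noncomputable section

namespace Fermat.Agent.S55.PTAssembly84.Cone

/-! ### The core with a weaker finiteness hypothesis -/

section Core'

open Fermat.Agent.S55.PTAssembly84.Core

variable {k : Type*} [Field k]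
variable {X P0 H1 H2 : Type*}
variable [AddCommGroup X] [Module k X] [AddCommGroup P0] [Module k P0]
variable [AddCommGroup H1] [Module k H1] [AddCommGroup H2] [Module k H2]

theorem ker_toDualPairKer' (j : P0 →ₗ[k] X) (α : X →ₗ[k] Dual k H2)
    [FiniteDimensional k (LinearMap.range (α ∘ₗ j))]
    (hkα : LinearMap.ker α ≤ LinearMap.range j) :
    LinearMap.ker (toDualPairKer j α) = LinearMap.range j := by
  classical
  apply le_antisymm
  · intro x hx
    rw [LinearMap.mem_ker] at hx
    have h1 : α x ∈ (pairKer j α).dualAnnihilator := by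
      rw [Submodule.mem_dualAnnihilator]
      intro w hw
      have := LinearMap.congr_fun hx ⟨w, hw⟩
      simpa [toDualPairKer_apply] using this
    rw [pairKer, Subspace.dualCoannihilator_dualAnnihilator_eq] at h1
    obtain ⟨y, hy⟩ := h1
    have h2 : x - j y ∈ LinearMap.ker α := by
      rw [LinearMap.mem_ker, map_sub, ← hy, LinearMap.comp_apply, sub_self]
    obtain ⟨z, hz⟩ := hkα h2
    refine ⟨z + y, ?_⟩
    rw [map_add, hz, sub_add_cancel]
  · rintro _ ⟨y, rfl⟩
    rw [LinearMap.mem_ker]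
    ext ⟨h, hh⟩
    rw [toDualPairKer_apply]
    exact (mem_pairKer j α h).1 hh y

theorem nonempty_range_equiv_dual_pairKer' (j : P0 →ₗ[k] X) (δ : X →ₗ[k] H1)
    (α : X →ₗ[k] Dual k H2) [FiniteDimensional k (LinearMap.range (α ∘ₗ j))]
    (hex : LinearMap.ker δ = LinearMap.range j)
    (hα : Function.Surjective α) (hkα : LinearMap.ker α ≤ LinearMap.range j) :
    Nonempty (LinearMap.range δ ≃ₗ[k] Dual k (pairKer j α)) := by
  have e1 : (X ⧸ LinearMap.ker δ) ≃ₗ[k] LinearMap.range δ := δ.quotKerEquivRange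
  have hk : LinearMap.ker δ = LinearMap.ker (toDualPairKer j α) := by
    rw [hex, ker_toDualPairKer' j α hkα]
  have e2 : (X ⧸ LinearMap.ker (toDualPairKer j α)) ≃ₗ[k] Dual k (pairKer j α) :=
    (toDualPairKer j α).quotKerEquivOfSurjective (toDualPairKer_surjective j α hα)
  exact ⟨e1.symm.trans ((Submodule.quotEquivOfEq _ _ hk).trans e2)⟩

/-- Cone form of the core: `H2` (the space paired with `X`) is finite-dimensional; then
`range δ ≃ Dual (pairKer)` and in particular `range δ` is finite-dimensional of the same dimension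
as `pairKer`. -/
theorem finrank_range_eq_finrank_pairKer' [FiniteDimensional k H2]
    (j : P0 →ₗ[k] X) (δ : X →ₗ[k] H1) (α : X →ₗ[k] Dual k H2)
    (hex : LinearMap.ker δ = LinearMap.range j)
    (hα : Function.Surjective α) (hkα : LinearMap.ker α ≤ LinearMap.range j) :
    FiniteDimensional k (LinearMap.range δ) ∧
      finrank k (LinearMap.range δ) = finrank k (pairKer j α) := by
  have : FiniteDimensional k (LinearMap.range (α ∘ₗ j)) := inferInstance
  obtain ⟨e⟩ := nonempty_range_equiv_dual_pairKer' j δ α hex hα hkα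
  have hfin : FiniteDimensional k (LinearMap.range δ) := LinearEquiv.finiteDimensional e.symm
  exact ⟨hfin, by rw [e.finrank_eq, Subspace.dual_finrank_eq]⟩

end Core'

/-! ### The cone route in the Prelude shapes -/

variable {p : ℕ} [Fact p.Prime] (S : Finset Nat.Primes)
variable (M : Rep (ZMod p) (AlgebraicClosure ℚ ≃ₐ[ℚ] AlgebraicClosure ℚ))

/-- The localisation map `H¹(G_ℚ, A) → H¹(G_q, A)` at `q ∈ S` (the `Sum.inr q` component of the
Prelude `locTotal (extArithLoc S) A`), typed through `primeLocalToGlobal q`. -/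
def locH1 (A : Rep (ZMod p) (AlgebraicClosure ℚ ≃ₐ[ℚ] AlgebraicClosure ℚ)) (q : ↥S) :
    H1 A →ₗ[ZMod p] H1 (Rep.res (primeLocalToGlobal q.1) A) :=
  (locRes (extArithLoc S) A (Sum.inr q)).hom

theorem locH1_apply (A : Rep (ZMod p) (AlgebraicClosure ℚ ≃ₐ[ℚ] AlgebraicClosure ℚ)) (q : ↥S)
    (y : H1 A) : locH1 S A q y = (locRes (extArithLoc S) A (Sum.inr q)).hom y := rfl

/-- `sha₁ S A` is contained in `continuousH1S S A`. -/
theorem sha₁_le_continuousH1S (A : Rep (ZMod p) (AlgebraicClosure ℚ ≃ₐ[ℚ] AlgebraicClosure ℚ)) :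
    sha₁ S A ≤ continuousH1S S A := inf_le_left

/-- **Assembly of S55, cone route (R1)**, abstract pairing form. -/
theorem s55_of_cone
    {H2c P1 : Type*} [AddCommGroup H2c] [Module (ZMod p) H2c]
    [AddCommGroup P1] [Module (ZMod p) P1]
    (δc : P1 →ₗ[ZMod p] H2c) (jc : H2c →ₗ[ZMod p] continuousH2S S M)
    (GD : H2c →ₗ[ZMod p] Dual (ZMod p) ↥(continuousH1S S (M.dualTwist (cycloChar p))))
    (hex : LinearMap.ker jc = LinearMap.range δc)
    (hrange : LinearMap.range jc = sha₂ S M)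
    (hGD : Function.Surjective GD) (hkGD : LinearMap.ker GD ≤ LinearMap.range δc)
    (hpair : ∀ y : ↥(continuousH1S S (M.dualTwist (cycloChar p))),
      (y : H1 (M.dualTwist (cycloChar p))) ∈ sha₁ S (M.dualTwist (cycloChar p)) ↔
        ∀ x : P1, GD (δc x) y = 0)
    (hfin : FiniteDimensional (ZMod p) ↥(continuousH1S S (M.dualTwist (cycloChar p)))) :
    ∃ B : sha₁ S (M.dualTwist (cycloChar p)) →ₗ[ZMod p] sha₂ S M →ₗ[ZMod p] ZMod p,
      (∀ y, (∀ x, B y x = 0) → y = 0) ∧ (∀ x, (∀ y, B y x = 0) → x = 0) := by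
  obtain ⟨h2, hd⟩ := finrank_range_eq_finrank_pairKer' δc jc GD hex hGD hkGD
  -- identify `pairKer` with `sha₁`
  have hpk : Core.pairKer δc GD = (sha₁ S (M.dualTwist (cycloChar p))).comap
      (continuousH1S S (M.dualTwist (cycloChar p))).subtype := by
    ext y
    rw [Core.mem_pairKer, Submodule.mem_comap, Submodule.subtype_apply, hpair]
  have e : ↥(Core.pairKer δc GD) ≃ₗ[ZMod p] ↥(sha₁ S (M.dualTwist (cycloChar p))) :=
    (LinearEquiv.ofEq _ _ hpk).trans
      (Submodule.comapSubtypeEquivOfLe (sha₁_le_continuousH1S S (M.dualTwist (cycloChar p))))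
  have hfin₁ : FiniteDimensional (ZMod p) ↥(sha₁ S (M.dualTwist (cycloChar p))) :=
    Submodule.finiteDimensional_of_le (sha₁_le_continuousH1S S (M.dualTwist (cycloChar p)))
  rw [hrange] at h2 hd
  exact Spine15.s55_of_finrank_eq S M hfin₁ h2 (by rw [← e.finrank_eq, ← hd])

/-- The right-kernel hypothesis of `s55_of_cone` from local pairings on `H¹`. -/
theorem pair_of_local_H1 (hp2 : p ≠ 2)
    {H2c : Type*} [AddCommGroup H2c] [Module (ZMod p) H2c]
    {P1 : ↥S → Type*} [∀ q, AddCommGroup (P1 q)] [∀ q, Module (ZMod p) (P1 q)]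
    (δc : (∀ q, P1 q) →ₗ[ZMod p] H2c)
    (GD : H2c →ₗ[ZMod p] Dual (ZMod p) ↥(continuousH1S S (M.dualTwist (cycloChar p))))
    (LD : ∀ q : ↥S, P1 q →ₗ[ZMod p]
      H1 (Rep.res (primeLocalToGlobal q.1) (M.dualTwist (cycloChar p))) →ₗ[ZMod p] ZMod p)
    (hLD : ∀ (q : ↥S) (y : H1 (Rep.res (primeLocalToGlobal q.1) (M.dualTwist (cycloChar p)))),
      (∀ x, LD q x y = 0) → y = 0)
    (hadj : ∀ (x : ∀ q, P1 q) (y : ↥(continuousH1S S (M.dualTwist (cycloChar p)))),
      GD (δc x) y = ∑ q : ↥S, LD q (x q)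
        (locH1 S (M.dualTwist (cycloChar p)) q (y : H1 (M.dualTwist (cycloChar p)))))
    (y : ↥(continuousH1S S (M.dualTwist (cycloChar p)))) :
    (y : H1 (M.dualTwist (cycloChar p))) ∈ sha₁ S (M.dualTwist (cycloChar p)) ↔
      ∀ x : (∀ q, P1 q), GD (δc x) y = 0 := by
  classical
  rw [ProfinLocal31.Sha.mem_sha₁_iff S hp2]
  constructor
  · rintro ⟨_, hloc⟩ x
    rw [hadj]
    refine Finset.sum_eq_zero fun q _ => ?_
    have h0 : locH1 S (M.dualTwist (cycloChar p)) q (y : H1 (M.dualTwist (cycloChar p))) = 0 :=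
      hloc q
    rw [h0, map_zero]
  · intro hx
    refine ⟨y.2, fun q => ?_⟩
    show locH1 S (M.dualTwist (cycloChar p)) q (y : H1 (M.dualTwist (cycloChar p))) = 0
    apply hLD q
    intro x0
    have := hx (Pi.single q x0)
    rw [hadj, Finset.sum_eq_single q] at this
    · simpa using this
    · intro q' _ hq'
      rw [Pi.single_eq_of_ne hq', map_zero, LinearMap.zero_apply]
    · intro hq
      exact absurd (Finset.mem_univ q) hq

/-- **Assembly of S55, cone route (R1)**, local pairing form. -/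
theorem s55_of_cone_local (hp2 : p ≠ 2)
    {H2c : Type*} [AddCommGroup H2c] [Module (ZMod p) H2c]
    {P1 : ↥S → Type*} [∀ q, AddCommGroup (P1 q)] [∀ q, Module (ZMod p) (P1 q)]
    (δc : (∀ q, P1 q) →ₗ[ZMod p] H2c) (jc : H2c →ₗ[ZMod p] continuousH2S S M)
    (GD : H2c →ₗ[ZMod p] Dual (ZMod p) ↥(continuousH1S S (M.dualTwist (cycloChar p))))
    (hex : LinearMap.ker jc = LinearMap.range δc)
    (hrange : LinearMap.range jc = sha₂ S M)
    (hGD : Function.Surjective GD) (hkGD : LinearMap.ker GD ≤ LinearMap.range δc)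
    (LD : ∀ q : ↥S, P1 q →ₗ[ZMod p]
      H1 (Rep.res (primeLocalToGlobal q.1) (M.dualTwist (cycloChar p))) →ₗ[ZMod p] ZMod p)
    (hLD : ∀ (q : ↥S) (y : H1 (Rep.res (primeLocalToGlobal q.1) (M.dualTwist (cycloChar p)))),
      (∀ x, LD q x y = 0) → y = 0)
    (hadj : ∀ (x : ∀ q, P1 q) (y : ↥(continuousH1S S (M.dualTwist (cycloChar p)))),
      GD (δc x) y = ∑ q : ↥S, LD q (x q)
        (locH1 S (M.dualTwist (cycloChar p)) q (y : H1 (M.dualTwist (cycloChar p)))))
    (hfin : FiniteDimensional (ZMod p) ↥(continuousH1S S (M.dualTwist (cycloChar p)))) :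
    ∃ B : sha₁ S (M.dualTwist (cycloChar p)) →ₗ[ZMod p] sha₂ S M →ₗ[ZMod p] ZMod p,
      (∀ y, (∀ x, B y x = 0) → y = 0) ∧ (∀ x, (∀ y, B y x = 0) → x = 0) :=
  s55_of_cone S M δc jc GD hex hrange hGD hkGD
    (pair_of_local_H1 S M hp2 δc GD LD hLD hadj) hfin

/-! ### The dualizing-module route (R3) -/

/-- **Assembly of S55, dualizing-module route (R3)**: `X = Dual (continuousH2S S M)`
(`= Hom_G(M, I)`), `j` the sum of the duals of the localisation maps composed with local duality,
`δ` the connecting map of `0 → M' → ⊕_q Ind_{D_q}^G M' → Hom(M, I) → 0`. -/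
theorem s55_of_dualizing (hp2 : p ≠ 2)
    {P0 : ↥S → Type*} [∀ q, AddCommGroup (P0 q)] [∀ q, Module (ZMod p) (P0 q)]
    [∀ q, FiniteDimensional (ZMod p) (P0 q)]
    (j : (∀ q, P0 q) →ₗ[ZMod p] Dual (ZMod p) (continuousH2S S M))
    (δ : Dual (ZMod p) (continuousH2S S M) →ₗ[ZMod p] H1 (M.dualTwist (cycloChar p)))
    (hex : LinearMap.ker δ = LinearMap.range j)
    (hrange : LinearMap.range δ = sha₁ S (M.dualTwist (cycloChar p)))
    (B : ∀ q : ↥S, P0 q →ₗ[ZMod p]
      continuousH2 (primeLocalToGlobal q.1) (Rep.res (primeLocalToGlobal q.1) M) →ₗ[ZMod p] ZMod p)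
    (hB : ∀ (q : ↥S) (y : continuousH2 (primeLocalToGlobal q.1)
      (Rep.res (primeLocalToGlobal q.1) M)), (∀ x, B q x y = 0) → y = 0)
    (hcompat : ∀ (x : ∀ q, P0 q) (h : continuousH2S S M),
      j x h = ∑ q : ↥S, B q (x q) (locRes₂S S M (primeLocalToGlobal q.1) h))
    (hfin : FiniteDimensional (ZMod p) (sha₁ S (M.dualTwist (cycloChar p)))) :
    ∃ B : sha₁ S (M.dualTwist (cycloChar p)) →ₗ[ZMod p] sha₂ S M →ₗ[ZMod p] ZMod p,
      (∀ y, (∀ x, B y x = 0) → y = 0) ∧ (∀ x, (∀ y, B y x = 0) → x = 0) :=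
  Plug.s55_of_assembly_local S M hp2 j δ LinearMap.id hex hrange Function.surjective_id
    (by rw [LinearMap.ker_id]; exact bot_le) B hB hcompat hfin

end Fermat.Agent.S55.PTAssembly84.Cone
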